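import Fermat.Agent.ML.At2.Ctrl.Desc
import Fermat.Agent.ML.Ihara.Tors
import Fermat.Agent.RIB.Grow.Div

/-!
# ML / AT-2 / Ctrl / Odd : (CTRL) at an ODD level `N` from (CTRL) at the rigid level `4N` and `[INV4]`

`EA M w = δ₀^* δ₀_* w`, `EB M w = δ₁^* δ₁_* w` (`δ₀, δ₁ : X₀(4M) → X₀(2M)`), so that `s_i = E_i - 1` are the two deck involutions.

* `Inv4 N p S θ` : **[INV4]** on the `p`-torsion: a class of `W(4N)` with `s₀ w = s₁ w = w` comes from the level `N` through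
  `d₁^* = iot N 2 1`.
* `Inv4.ext` : the same for the whole `θ`-part (divisibility of the `θ`-part of level `N`).
* `iot_two_one_injective` : `d₁^*` is injective on the `θ`-part (Ihara at `2` + degree `2`).
* `ctrl_odd` : `Ctrl (N*2*2) l`, `Inv4 N` `⟹` `Ctrl N l`.
-/

set_option autoImplicit false
set_option linter.unusedSectionVars false
set_option linter.style.haveILetI false

noncomputable section

open AlgebraicCurve ModularCurve

namespace Fermat.Agent.ML.At2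

open Fermat.Agent.RIB Fermat.Agent.GAL Fermat.Agent.GAL.PC Fermat.Agent.GAL.HeckeComm

local notation "Qbar" => AlgebraicClosure ℚ
local notation "GQ" => (AlgebraicClosure ℚ ≃ₐ[ℚ] AlgebraicClosure ℚ)

/-- `δ₀^* δ₀_*` on `J₀(4M)` -/
def EA (M : ℕ) [NeZero M] : JZero (M * 2 * 2) →+ JZero (M * 2 * 2) :=
  (pullA (M * 2) 2).comp (SS.pushA (M * 2) 2)

/-- `δ₁^* δ₁_*` on `J₀(4M)` -/
def EB (M : ℕ) [NeZero M] : JZero (M * 2 * 2) →+ JZero (M * 2 * 2) :=
  (pullB (M * 2) 2).comp (SS.pushB (M * 2) 2)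

theorem EA_apply (M : ℕ) [NeZero M] (w : JZero (M * 2 * 2)) :
    EA M w = pullA (M * 2) 2 (SS.pushA (M * 2) 2 w) := rfl

theorem EB_apply (M : ℕ) [NeZero M] (w : JZero (M * 2 * 2)) :
    EB M w = pullB (M * 2) 2 (SS.pushB (M * 2) 2 w) := rfl

/-- `α'^* β^* = β'^* α^*` -/
theorem pullA_pullB_eq (M : ℕ) [NeZero M] (x : JZero M) :
    pullA (M * 2) 2 (pullB M 2 x) = pullB (M * 2) 2 (pullA M 2 x) := by
  have h := swJ_pullA_pullB M 2 2 x
  rwa [show swJ M 2 2 = castJ rfl from rfl, castJ_rfl] at h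

theorem EA_pullA (M : ℕ) [NeZero M] (y : JZero (M * 2)) :
    EA M (pullA (M * 2) 2 y) = 2 • pullA (M * 2) 2 y := by
  rw [EA_apply, pushA_pullA_of_dvd (M * 2) 2 Nat.prime_two (Dvd.intro_left M rfl), map_nsmul]

theorem EB_pullB (M : ℕ) [NeZero M] (y : JZero (M * 2)) :
    EB M (pullB (M * 2) 2 y) = 2 • pullB (M * 2) 2 y := by
  rw [EB_apply, pushB_pullB_of_dvd (M * 2) 2 Nat.prime_two (Dvd.intro_left M rfl), map_nsmul]

theorem EA_iot (M : ℕ) [NeZero M] (u : JZero M) : EA M (iot M 2 1 u) = 2 • iot M 2 1 u := by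
  rw [iot_one, EA_pullA]

theorem EB_iot (M : ℕ) [NeZero M] (u : JZero M) : EB M (iot M 2 1 u) = 2 • iot M 2 1 u := by
  rw [iot_one, pullA_pullB_eq, EB_pullB]

section Theta

variable {M p : ℕ} [NeZero M] {S : Set ℕ} {θ : ℕ → ℤ}

theorem EA_mem_thetaPart (hS : ∀ r : ℕ, r.Prime → r ∉ S → ¬ r ∣ M * 2 * 2 * p)
    {w : JZero (M * 2 * 2)} (hw : w ∈ thetaPart (M * 2 * 2) p S θ) :
    EA M w ∈ thetaPart (M * 2 * 2) p S θ :=
  pullA_mem_thetaPart hS (pushA_mem_thetaPart hS hw)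

theorem EB_mem_thetaPart (hS : ∀ r : ℕ, r.Prime → r ∉ S → ¬ r ∣ M * 2 * 2 * p)
    {w : JZero (M * 2 * 2)} (hw : w ∈ thetaPart (M * 2 * 2) p S θ) :
    EB M w ∈ thetaPart (M * 2 * 2) p S θ :=
  pullB_mem_thetaPart hS (pushB_mem_thetaPart hS hw)

/-- **[INV4]**, `p`-torsion form. -/
def Inv4 (N p : ℕ) [NeZero N] (S : Set ℕ) (θ : ℕ → ℤ) : Prop :=
  ∀ w ∈ WS (N * 2 * 2) p S θ, EA N w = 2 • w → EB N w = 2 • w →
    ∃ u ∈ thetaPart N p S θ, iot N 2 1 u = w

/-- divisibility by `p^k` -/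
theorem exists_pow_nsmul_eq (hp : 0 < p) (k : ℕ) {x : JZero M} (hx : x ∈ thetaPart M p S θ) :
    ∃ y ∈ thetaPart M p S θ, p ^ k • y = x := by
  induction k with
  | zero => exact ⟨x, hx, by rw [pow_zero, one_smul]⟩
  | succ k ih =>
    obtain ⟨y, hy, e⟩ := ih
    obtain ⟨z, hz, e'⟩ := thetaPart_divisible M hp S θ y hy
    exact ⟨z, hz, by rw [pow_succ, mul_smul, e', e]⟩

/-- **[INV4]** on the whole `θ`-part. -/
theorem Inv4.ext (H : Inv4 M p S θ) (hp : 0 < p)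
    (hS : ∀ r : ℕ, r.Prime → r ∉ S → ¬ r ∣ M * 2 * 2 * p) :
    ∀ w ∈ thetaPart (M * 2 * 2) p S θ, EA M w = 2 • w → EB M w = 2 • w →
      ∃ u ∈ thetaPart M p S θ, iot M 2 1 u = w := by
  have key : ∀ k : ℕ, ∀ w ∈ thetaPart (M * 2 * 2) p S θ, p ^ k • w = 0 → EA M w = 2 • w →
      EB M w = 2 • w → ∃ u ∈ thetaPart M p S θ, iot M 2 1 u = w := by
    intro k
    induction k with
    | zero =>
      intro w _ h0 _ _
      rw [pow_zero, one_smul] at h0
      exact ⟨0, (thetaPart M p S θ).zero_mem, by rw [map_zero, h0]⟩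
    | succ k ih =>
      intro w hw h0 hA hB
      have hw' : p ^ k • w ∈ WS (M * 2 * 2) p S θ :=
        ⟨(thetaPart _ p S θ).nsmul_mem hw _, by rw [← mul_smul, ← pow_succ', h0]⟩
      obtain ⟨u₀, hu₀, e₀⟩ := H _ hw' (by rw [map_nsmul, hA, smul_comm])
        (by rw [map_nsmul, hB, smul_comm])
      obtain ⟨u₁, hu₁, e₁⟩ := exists_pow_nsmul_eq hp k hu₀
      have hS1 : iot M 2 1 u₁ ∈ thetaPart (M * 2 * 2) p S θ := iot_mem_thetaPart hS 1 hu₁
      obtain ⟨u₂, hu₂, e₂⟩ := ih (w - iot M 2 1 u₁) ((thetaPart _ p S θ).sub_mem hw hS1)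
        (by rw [nsmul_sub, ← map_nsmul, e₁, e₀, sub_self])
        (by rw [map_sub, hA, EA_iot, nsmul_sub]) (by rw [map_sub, hB, EB_iot, nsmul_sub])
      exact ⟨u₂ + u₁, (thetaPart M p S θ).add_mem hu₂ hu₁, by rw [map_add, e₂, sub_add_cancel]⟩
  intro w hw hA hB
  obtain ⟨k, hk⟩ := hw.1
  exact key k w hw hk hA hB

/-- `d₁^*` is injective on the `θ`-part of an odd level. -/
theorem iot_two_one_injective (hp : p.Prime) (hp2 : p ≠ 2) (hM : ¬ 2 ∣ M)
    (hAP : NonEisAP p S θ) (h2S : 2 ∈ S) {y : JZero M} (hy : y ∈ thetaPart M p S θ)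
    (h0 : iot M 2 1 y = 0) : y = 0 := by
  rw [iot_one] at h0
  have h1 : 2 • pullB M 2 y = 0 := by
    rw [← pushA_pullA_of_dvd (M * 2) 2 Nat.prime_two (Dvd.intro_left M rfl), h0, map_zero]
  have h2 : pullB M 2 y = 0 := by
    refine eq_zero_of_nsmul_eq_zero (p := p) ((Nat.coprime_primes Nat.prime_two hp).2 hp2.symm)
      ?_ h1
    obtain ⟨k, hk⟩ := hy.1
    exact ⟨k, by rw [← map_nsmul, hk, map_zero]⟩
  exact (ihara_theta hp (iharaTors Nat.prime_two hM) hAP h2S (thetaPart M p S θ).zero_mem hy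
    (by rw [map_zero, zero_add, h2])).2

end Theta

section Odd

variable {N l p : ℕ} [NeZero N] [NeZero l] {S : Set ℕ} {θ : ℕ → ℤ} {A : ValuationSubring Qbar}

/-- `β_q^*` of an old class. -/
theorem castJ_pullB_iota {q : ℕ} [NeZero q] (v : Fin 3 → JZero N) :
    castJ (lev_comm N q l) (pullB (N * l * l) q (iota N l v)) =
      iota (N * q) l (fun i => pullB N q (v i)) := by
  rw [iota_apply, iota_apply, map_sum, map_sum]
  refine Finset.sum_congr rfl fun j _ => ?_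
  rw [castJ_pullB_iot N q l rfl (lev_comm N q l) j (v j), castJ_rfl]

/-- `β_{q *}` of an old class. -/
theorem pushB_castJ_iota {q : ℕ} [NeZero q] (hq : q.Prime) (hl : l.Prime) (hne : q ≠ l)
    (w : Fin 3 → JZero (N * q)) :
    SS.pushB (N * l * l) q ((castJ (lev_comm N q l)).symm (iota (N * q) l w)) =
      iota N l (fun i => SS.pushB N q (w i)) := by
  rw [iota_apply, iota_apply, map_sum, map_sum]
  refine Finset.sum_congr rfl fun j _ => ?_
  rw [pushB_castJ_iot N hq hl hne rfl (lev_comm N q l) j (w j), castJ_symm_apply, castJ_rfl]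

/-- `δ₀^* δ₀_*` at the level `4 N l²`, written at the level `(N*2*2)*l*l`. -/
def PA (N l : ℕ) [NeZero N] [NeZero l] : JZero (N * 2 * 2 * l * l) →+ JZero (N * 2 * 2 * l * l) :=
  ((castJ (lev_comm (N * 2) 2 l)).toAddMonoidHom.comp
    ((pullA (N * 2 * l * l) 2).comp (SS.pushA (N * 2 * l * l) 2))).comp
      (castJ (lev_comm (N * 2) 2 l)).symm.toAddMonoidHom

/-- `δ₁^* δ₁_*` at the level `4 N l²`, written at the level `(N*2*2)*l*l`. -/
def PB (N l : ℕ) [NeZero N] [NeZero l] : JZero (N * 2 * 2 * l * l) →+ JZero (N * 2 * 2 * l * l) :=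
  ((castJ (lev_comm (N * 2) 2 l)).toAddMonoidHom.comp
    ((pullB (N * 2 * l * l) 2).comp (SS.pushB (N * 2 * l * l) 2))).comp
      (castJ (lev_comm (N * 2) 2 l)).symm.toAddMonoidHom

theorem PA_apply (Y : JZero (N * 2 * 2 * l * l)) : PA N l Y = castJ (lev_comm (N * 2) 2 l)
    (pullA (N * 2 * l * l) 2 (SS.pushA (N * 2 * l * l) 2 ((castJ (lev_comm (N * 2) 2 l)).symm Y))) :=
  rfl

theorem PB_apply (Y : JZero (N * 2 * 2 * l * l)) : PB N l Y = castJ (lev_comm (N * 2) 2 l)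
    (pullB (N * 2 * l * l) 2 (SS.pushB (N * 2 * l * l) 2 ((castJ (lev_comm (N * 2) 2 l)).symm Y))) :=
  rfl

theorem PA_iota (hl : l.Prime) (hl2 : 2 ≠ l) (w : Fin 3 → JZero (N * 2 * 2)) :
    PA N l (iota (N * 2 * 2) l w) = iota (N * 2 * 2) l (fun i => EA N (w i)) := by
  rw [PA_apply, pushA_castJ_iota Nat.prime_two hl hl2 w, castJ_pullA_iota]
  rfl

theorem PB_iota (hl : l.Prime) (hl2 : 2 ≠ l) (w : Fin 3 → JZero (N * 2 * 2)) :
    PB N l (iota (N * 2 * 2) l w) = iota (N * 2 * 2) l (fun i => EB N (w i)) := by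
  rw [PB_apply, pushB_castJ_iota Nat.prime_two hl hl2 w, castJ_pullB_iota]
  rfl

/-- the class `d₁^* x`, written at the level `(N*2*2)*l*l`. -/
def dW (N l : ℕ) [NeZero N] [NeZero l] : JZero (N * l * l) →+ JZero (N * 2 * 2 * l * l) :=
  (sw22 N l 2).toAddMonoidHom.comp (iot (N * l * l) 2 1)

theorem dW_apply (x : JZero (N * l * l)) : dW N l x = sw22 N l 2 (iot (N * l * l) 2 1 x) := rfl

theorem dW_eq_A (x : JZero (N * l * l)) : dW N l x = castJ (lev_comm (N * 2) 2 l)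
    (pullA (N * 2 * l * l) 2 (castJ (lev_comm N 2 l) (pullB (N * l * l) 2 x))) := by
  rw [dW_apply, iot_one,
    ← castJ_pullA 2 (lev_comm N 2 l) (congrArg (· * 2) (lev_comm N 2 l)), castJ_castJ]

theorem dW_eq_B (x : JZero (N * l * l)) : dW N l x = castJ (lev_comm (N * 2) 2 l)
    (pullB (N * 2 * l * l) 2 (castJ (lev_comm N 2 l) (pullA (N * l * l) 2 x))) := by
  rw [dW_apply, iot_one, pullA_pullB_eq,
    ← castJ_pullB 2 (lev_comm N 2 l) (congrArg (· * 2) (lev_comm N 2 l)), castJ_castJ]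

theorem two_dvd_lev (N l : ℕ) : 2 ∣ N * 2 * l * l := ⟨N * l * l, by ring⟩

theorem PA_dW (x : JZero (N * l * l)) : PA N l (dW N l x) = 2 • dW N l x := by
  rw [PA_apply, dW_eq_A, AddEquiv.symm_apply_apply,
    pushA_pullA_of_dvd (N * 2 * l * l) 2 Nat.prime_two (two_dvd_lev N l), map_nsmul, map_nsmul]

theorem PB_dW (x : JZero (N * l * l)) : PB N l (dW N l x) = 2 • dW N l x := by
  rw [PB_apply, dW_eq_B, AddEquiv.symm_apply_apply,
    pushB_pullB_of_dvd (N * 2 * l * l) 2 Nat.prime_two (two_dvd_lev N l), map_nsmul, map_nsmul]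

theorem dW_iota (u : Fin 3 → JZero N) :
    dW N l (iota N l u) = iota (N * 2 * 2) l (fun i => iot N 2 1 (u i)) := by
  rw [iota_apply, iota_apply, map_sum]
  refine Finset.sum_congr rfl fun i _ => ?_
  rw [dW_apply, sw22_iot_iot]

theorem dW_smul (σ : GQ) (x : JZero (N * l * l)) : dW N l (σ • x) = σ • dW N l x := by
  rw [dW_apply, dW_apply, iot_smul, castJ_smul]

/-- **(CTRL) at the odd level `N`.** -/
theorem ctrl_odd (hp : p.Prime) (hp2 : p ≠ 2) (hl : l.Prime) (hl2 : 2 ≠ l) (hN : ¬ 2 ∣ N)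
    (hAP : NonEisAP p S θ) (h2S : 2 ∈ S)
    (hS : ∀ r : ℕ, r.Prime → r ∉ S → ¬ r ∣ N * l * l * 2 * 2 * p)
    (Hinv : Inv4 N p S θ) (H : Ctrl (N * 2 * 2) l p S θ A) : Ctrl N l p S θ A := by
  have hS4 : ∀ r : ℕ, r.Prime → r ∉ S → ¬ r ∣ N * 2 * 2 * p := fun r hr hrS hd =>
    hS r hr hrS (hd.trans ⟨l * l, by ring⟩)
  have hSl : ∀ r : ℕ, r.Prime → r ∉ S → ¬ r ∣ N * l * l * p := fun r hr hrS hd =>
    hS r hr hrS (hd.trans ⟨2 * 2, by ring⟩)
  have hNl : ¬ 2 ∣ N * l * l := by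
    intro h
    rcases (Nat.Prime.dvd_mul Nat.prime_two).1 h with h | h
    · rcases (Nat.Prime.dvd_mul Nat.prime_two).1 h with h | h
      · exact hN h
      · exact hl2 ((Nat.prime_dvd_prime_iff_eq Nat.prime_two hl).1 h)
    · exact hl2 ((Nat.prime_dvd_prime_iff_eq Nat.prime_two hl).1 h)
  have hdWθ : ∀ x ∈ thetaPart (N * l * l) p S θ, dW N l x ∈ thetaPart (N * 2 * 2 * l * l) p S θ :=
    fun x hx => (castJ_mem_thetaPart _).2 (iot_mem_thetaPart hS 1 hx)
  have hdWinj : ∀ x ∈ thetaPart (N * l * l) p S θ, dW N l x = 0 → x = 0 := fun x hx h0 => by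
    rw [dW_apply, AddEquiv.map_eq_zero_iff] at h0
    exact iot_two_one_injective hp hp2 hNl hAP h2S hx h0
  refine ⟨fun x hx hfix => ?_, fun v hv h0 => ?_⟩
  · obtain ⟨w, hw, hwX⟩ := H.1 (dW N l x) (hdWθ x hx)
      (fun τ hτ => by rw [← dW_smul, hfix τ hτ])
    have hA : ∀ i, EA N (w i) = 2 • w i := by
      have h1 : iota (N * 2 * 2) l (fun i => EA N (w i) - 2 • w i) = 0 := by
        have e : (fun i => EA N (w i) - 2 • w i) = (fun i => EA N (w i)) - 2 • w := rfl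
        rw [e, map_sub, map_nsmul, ← PA_iota hl hl2, hwX, PA_dW, sub_self]
      have h2 := H.2 _ (fun i => (thetaPart _ p S θ).sub_mem (EA_mem_thetaPart hS4 (hw i))
        ((thetaPart _ p S θ).nsmul_mem (hw i) 2)) h1
      exact fun i => sub_eq_zero.1 (congrFun h2 i)
    have hB : ∀ i, EB N (w i) = 2 • w i := by
      have h1 : iota (N * 2 * 2) l (fun i => EB N (w i) - 2 • w i) = 0 := by
        have e : (fun i => EB N (w i) - 2 • w i) = (fun i => EB N (w i)) - 2 • w := rfl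
        rw [e, map_sub, map_nsmul, ← PB_iota hl hl2, hwX, PB_dW, sub_self]
      have h2 := H.2 _ (fun i => (thetaPart _ p S θ).sub_mem (EB_mem_thetaPart hS4 (hw i))
        ((thetaPart _ p S θ).nsmul_mem (hw i) 2)) h1
      exact fun i => sub_eq_zero.1 (congrFun h2 i)
    choose u hu hue using fun i => Hinv.ext hp.pos hS4 (w i) (hw i) (hA i) (hB i)
    refine ⟨u, hu, ?_⟩
    have h3 : dW N l (iota N l u - x) = 0 := by
      rw [map_sub, dW_iota, ← hwX, sub_eq_zero]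
      congr 1
      funext i
      exact hue i
    exact sub_eq_zero.1 (hdWinj _ ((thetaPart _ p S θ).sub_mem (iota_mem_thetaPart hSl hu) hx) h3)
  · have h1 : iota (N * 2 * 2) l (fun i => iot N 2 1 (v i)) = 0 := by
      rw [← dW_iota, h0, map_zero]
    have h2 := H.2 _ (fun i => iot_mem_thetaPart hS4 1 (hv i)) h1
    funext i
    exact iot_two_one_injective hp hp2 hN hAP h2S (hv i) (congrFun h2 i)

end Odd

end Fermat.Agent.ML.At2
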