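import Fermat.Agent.ML.At2.Ctrl.Odd
import Fermat.Agent.ML.TWFree.Inst.NR
import Fermat.Agent.ML.TWFree.Inst.QSq
import Fermat.Agent.ML.TWFree.Inst.KCube

/-!
# ML / AT-2 / Ctrl / Cube : (CTRL) on the Taylor–Wiles cubes over the NON-RIGID base levels `2M`, `M`

`CtrlCube p T θ L₀ qv` (helper83, `ML/TWFree/Inst/NR.lean`) is the only input of `isCube_of_tau0` / `exists_isCube_of_ctrl`
which uses the rigidity `4 ∣ L₀`.  Here it is brought down from the rigid base level `4M`: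

* `ctrlCube_desc_dvd`     : `L q ⟶ L` if `q ∣ L`, `q ≠ p`;
* `ctrlCube_desc_not_dvd` : `L q ⟶ L` if `q ∤ L`, `p ∤ q + 1`;
* `ctrlCube_odd`          : `4M ⟶ M` (`M` odd) from **[INV4]** at the vertices of the cube;
* `ctrlCube_two`  : `CtrlCube` over `M * 2` from `MCtx` + `MTW` over `M * 2 * 2` (every odd `p`);
* `ctrlCube_one_of_ne_three` : `CtrlCube` over `M` if `p ≠ 3`;  `ctrlCube_one_of_inv4` : the same from [INV4] (every odd `p`);
* `GenAt`, `genAt_desc_dvd`, `genAt_desc_not_dvd` : the generators of inertia chosen over `L q` work over `L`;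
* `isCube_two`, `isCube_one` : `IsCube` over `M * 2`, `M` for the generators of inertia chosen over `M * 2 * 2`;
* `cubeK_two` : the `2`-new parts of the levels `lev (M * 2) qv Q` form a `Cube`;
* `exists_isCube_four_two_one` : ONE choice of `τ` for which all this holds.
-/

set_option autoImplicit false
set_option linter.unusedSectionVars false

noncomputable section

open AlgebraicCurve ModularCurve

namespace Fermat.Agent.ML.At2

open Fermat.Agent.RIB Fermat.Agent.GAL Fermat.Agent.GAL.PC Fermat.Agent.ML.TWFree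

local notation "Qbar" => AlgebraicClosure ℚ
local notation "GQ" => (AlgebraicClosure ℚ ≃ₐ[ℚ] AlgebraicClosure ℚ)
local notation "M₂" => Matrix (Fin 2) (Fin 2)

section Conv

variable {p : ℕ} {S : Set ℕ} {θ : ℕ → ℤ} {N N' l : ℕ} [NeZero N] [NeZero N'] [NeZero l]

theorem ctrl_of_ctrlAt (h : CtrlAt p S θ N l) {A : ValuationSubring Qbar}
    (hA : A.LiesOverPrime l) : Ctrl N l p S θ A := ⟨h.surj A hA, h.inj⟩

theorem ctrlAt_of_ctrl (hl : l.Prime)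
    (h : ∀ A : ValuationSubring Qbar, A.LiesOverPrime l → Ctrl N l p S θ A) :
    CtrlAt p S θ N l where
  surj := fun A hA => (h A hA).1
  inj := by
    obtain ⟨A, hA⟩ := S54.exists_liesOverPrime hl
    exact (h A hA).2

theorem ctrlAt_congr (e : N = N') (h : CtrlAt p S θ N l) : CtrlAt p S θ N' l := by
  subst e
  exact h

end Conv

section Cube

variable {p : ℕ} {T : Finset ℕ} {θ : ℕ → ℤ} {L q t n : ℕ} [NeZero L] [NeZero q]
  {qv : Fin t → Nat.Primes}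

theorem ne_qv_of_mtw0 (TC : MTW0 p T θ (L * q) t n qv) (hq : q.Prime) (i : Fin t) :
    q ≠ ((qv i : Nat.Primes) : ℕ) := fun h =>
  TC.notT i (h ▸ TC.lev q hq ((Dvd.intro_left L rfl).mul_right p))

theorem hS_of_mtw0 (TC : MTW0 p T θ (L * q) t n qv) {Q : Finset (Fin t)} {i : Fin t}
    (hi : i ∉ Q) : ∀ r : ℕ, r.Prime → r ∉ (↑(cutS T qv) : Set ℕ) →
      ¬ r ∣ lev L qv Q * ((qv i : Nat.Primes) : ℕ) * ((qv i : Nat.Primes) : ℕ) * q * p :=
  fun r hr hrS hd => hrS (Finset.mem_coe.2 (TC.hS_edge hi r hr (by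
    rw [lev_mul qv rfl Q]
    exact hd.trans (dvd_of_eq (by ring)))))

theorem not_dvd_lev_of (TC : MTW0 p T θ (L * q) t n qv) (hq : q.Prime) (hqL : ¬ q ∣ L)
    (Q : Finset (Fin t)) : ¬ q ∣ lev L qv Q := fun hd => by
  rcases dvd_lev hq hd with h | ⟨i, _, h⟩
  · exact hqL h
  · exact ne_qv_of_mtw0 TC hq i h

/-- (CTRL) on the cube descends from `L q` to `L` if `q ∣ L`, `q ≠ p`. -/
theorem ctrlCube_desc_dvd (hp : p.Prime) (TC : MTW0 p T θ (L * q) t n qv) (hq : q.Prime)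
    (hqp : q ≠ p) (hqL : q ∣ L) (H : CtrlCube p T θ (L * q) qv) : CtrlCube p T θ L qv :=
  fun Q i hi => ctrlAt_of_ctrl (qv i).2 fun _ hA =>
    ctrl_desc_dvd hp hq (qv i).2 (ne_qv_of_mtw0 TC hq i) hqp
      (hqL.trans (Dvd.intro _ rfl)) (hS_of_mtw0 TC hi)
      (ctrl_of_ctrlAt (ctrlAt_congr (lev_mul qv rfl Q) (H Q i hi)) hA)

/-- (CTRL) on the cube descends from `L q` to `L` if `q ∤ L`, `p ∤ q + 1`. -/
theorem ctrlCube_desc_not_dvd (hp : p.Prime) (TC : MTW0 p T θ (L * q) t n qv) (hq : q.Prime)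
    (hqp : ¬ p ∣ q + 1) (hqL : ¬ q ∣ L) (H : CtrlCube p T θ (L * q) qv) :
    CtrlCube p T θ L qv :=
  fun Q i hi => ctrlAt_of_ctrl (qv i).2 fun _ hA =>
    ctrl_desc_not_dvd hp hq (qv i).2 (ne_qv_of_mtw0 TC hq i) hqp
      (not_dvd_lev_of TC hq hqL Q) (hS_of_mtw0 TC hi)
      (ctrl_of_ctrlAt (ctrlAt_congr (lev_mul qv rfl Q) (H Q i hi)) hA)

end Cube

section Two

variable {p : ℕ} [Fact p.Prime] {T : Finset ℕ} {θ : ℕ → ℤ} {rbar0 : GQ →* M₂ (ZMod p)}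
  {M t n : ℕ} [NeZero M] {qv : Fin t → Nat.Primes}

/-- (CTRL) on the cube descends from `4M` to `M` (`M` odd), given [INV4] at the vertices. -/
theorem ctrlCube_odd (EC : MCtx p T θ rbar0) (TC : MTW0 p T θ (M * 2 * 2) t n qv)
    (hM : ¬ 2 ∣ M) (Hinv : ∀ Q : Finset (Fin t), Inv4 (lev M qv Q) p (↑(cutS T qv) : Set ℕ) θ)
    (H : CtrlCube p T θ (M * 2 * 2) qv) : CtrlCube p T θ M qv := by
  have hp : p.Prime := Fact.out
  have TC2 : MTW0 p T θ (M * 2) t n qv := TC.of_dvd (Dvd.intro _ rfl)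
  intro Q i hi
  refine ctrlAt_of_ctrl (qv i).2 fun A hA => ?_
  refine ctrl_odd hp EC.hp2 (qv i).2 (ne_qv_of_mtw0 TC Nat.prime_two i)
    (not_dvd_lev_of TC2 Nat.prime_two hM Q) (EC.nonEis (cutS T qv))
    (Finset.mem_coe.2 (subset_cutS T qv (TC.lev 2 Nat.prime_two
      ((Dvd.intro_left (M * 2) rfl).mul_right p)))) ?_ (Hinv Q)
    (ctrl_of_ctrlAt (ctrlAt_congr (lev_mul2 qv rfl Q) (H Q i hi)) hA)
  intro r hr hrS hd
  refine hrS (Finset.mem_coe.2 (TC.hS_edge hi r hr ?_))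
  rw [lev_mul2 qv rfl Q]
  exact hd.trans (dvd_of_eq (by ring))

/-- **(CTRL) on the cube over `2M`**, every odd `p`. -/
theorem ctrlCube_two (EC : MCtx p T θ rbar0) (TC : MTW p T θ (M * 2 * 2) t n qv) :
    CtrlCube p T θ (M * 2) qv :=
  ctrlCube_desc_dvd Fact.out TC.toMTW0 Nat.prime_two (fun h => EC.hp2 h.symm)
    (Dvd.intro_left M rfl) (ctrlCube_of_mtw EC TC)

/-- **(CTRL) on the cube over `M`**, `p ≠ 3`. -/
theorem ctrlCube_one_of_ne_three (EC : MCtx p T θ rbar0) (TC : MTW p T θ (M * 2 * 2) t n qv)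
    (hM : ¬ 2 ∣ M) (hp3 : p ≠ 3) : CtrlCube p T θ M qv :=
  ctrlCube_desc_not_dvd Fact.out (TC.toMTW0.of_dvd (Dvd.intro _ rfl)) Nat.prime_two
    (fun h => hp3 ((Nat.prime_dvd_prime_iff_eq Fact.out Nat.prime_three).1 h)) hM
    (ctrlCube_two EC TC)

/-- **(CTRL) on the cube over `M`** from [INV4], every odd `p`. -/
theorem ctrlCube_one_of_inv4 (EC : MCtx p T θ rbar0) (TC : MTW p T θ (M * 2 * 2) t n qv)
    (hM : ¬ 2 ∣ M) (Hinv : ∀ Q : Finset (Fin t), Inv4 (lev M qv Q) p (↑(cutS T qv) : Set ℕ) θ) :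
    CtrlCube p T θ M qv :=
  ctrlCube_odd EC TC.toMTW0 hM Hinv (ctrlCube_of_mtw EC TC)

end Two

section Gen

variable {p : ℕ} {T : Finset ℕ} {θ : ℕ → ℤ} {L q t n : ℕ} [NeZero L] [NeZero q]
  {qv : Fin t → Nat.Primes}

/-- `τ i` generates the image of the inertia group `I(A i)` on the `p^(ν_i + 1)`-torsion of all the vertices of the cube
over `L₀` (the hypothesis `hgen` of `isCube_of_tau`, `isCube_of_tau0`). -/
def GenAt (p : ℕ) (T : Finset ℕ) (θ : ℕ → ℤ) (L₀ : ℕ) [NeZero L₀] {t : ℕ}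
    (qv : Fin t → Nat.Primes) (A : Fin t → ValuationSubring Qbar) (τ : Fin t → GQ) : Prop :=
  ∀ (i : Fin t) (Q : Finset (Fin t)),
    ∀ x ∈ thetaPart (lev L₀ qv Q) p (↑(cutS T qv) : Set ℕ) θ,
      p ^ (nuP p qv i + 1) • x = 0 → τ i • x = x →
      ∀ σ ∈ (A i).inertiaSubgroupIn ℚ, σ • x = x

theorem hS_lev_of_mtw0 {L₀ : ℕ} (TC : MTW0 p T θ L₀ t n qv) (Q : Finset (Fin t)) :
    ∀ r : ℕ, r.Prime → r ∉ (↑(cutS T qv) : Set ℕ) → ¬ r ∣ lev L₀ qv Q * p :=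
  fun _ hr hrS hd => hrS (Finset.mem_coe.2 (TC.mem_cutS_lev Q hr hd))

theorem genAt_desc_dvd (hp : p.Prime) (TC : MTW0 p T θ (L * q) t n qv) (hq : q.Prime)
    (hqp : q ≠ p) (hqL : q ∣ L) {A : Fin t → ValuationSubring Qbar} {τ : Fin t → GQ}
    (H : GenAt p T θ (L * q) qv A τ) : GenAt p T θ L qv A τ := fun i Q => by
  have : Fact p.Prime := ⟨hp⟩
  have hd : q ∣ lev L qv Q := hqL.trans (Dvd.intro _ rfl)
  refine gen_descent_of_inj (upE (lev_mul qv rfl Q) 0) (upE_smul _ 0)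
    (fun _ hx => upE_mem_thetaPart _ (hS_lev_of_mtw0 TC Q) 0 hx)
    (fun x hx h0 => eq_zero_of_nsmul_eq_zero ((Nat.coprime_primes hq hp).2 hqp) hx.1 ?_)
    _ (τ i) _ (H i Q)
  rw [← dnE_upE_of_dvd hq hd (lev_mul qv rfl Q) 0 x, h0, map_zero]

theorem genAt_desc_not_dvd (hp : p.Prime) (TC : MTW0 p T θ (L * q) t n qv) (hq : q.Prime)
    (hqL : ¬ q ∣ L) (hAP : NonEisAP p (↑(cutS T qv) : Set ℕ) θ)
    {A : Fin t → ValuationSubring Qbar} {τ : Fin t → GQ}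
    (H : GenAt p T θ (L * q) qv A τ) : GenAt p T θ L qv A τ := fun i Q =>
  KC.gen_descent_q (lev_mul qv rfl Q) hp hq (not_dvd_lev_of TC hq hqL Q) hAP
    (Finset.mem_coe.2 (subset_cutS T qv (TC.lev q hq ((Dvd.intro_left L rfl).mul_right p))))
    (hS_lev_of_mtw0 TC Q) _ (τ i) _ (H i Q)

end Gen

section Final

variable {p : ℕ} [Fact p.Prime] {T : Finset ℕ} {θ : ℕ → ℤ} {rbar0 : GQ →* M₂ (ZMod p)}
  {M t n : ℕ} [NeZero M] {qv : Fin t → Nat.Primes}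
  {A : Fin t → ValuationSubring Qbar} {τ : Fin t → GQ}

theorem genAt_two (EC : MCtx p T θ rbar0) (TC : MTW p T θ (M * 2 * 2) t n qv)
    (hgen : GenAt p T θ (M * 2 * 2) qv A τ) : GenAt p T θ (M * 2) qv A τ :=
  genAt_desc_dvd Fact.out TC.toMTW0 Nat.prime_two (fun h => EC.hp2 h.symm)
    (Dvd.intro_left M rfl) hgen

theorem genAt_one (EC : MCtx p T θ rbar0) (TC : MTW p T θ (M * 2 * 2) t n qv) (hM : ¬ 2 ∣ M)
    (hgen : GenAt p T θ (M * 2 * 2) qv A τ) : GenAt p T θ M qv A τ :=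
  genAt_desc_not_dvd Fact.out (TC.toMTW0.of_dvd (Dvd.intro _ rfl)) Nat.prime_two hM
    (EC.nonEis (cutS T qv)) (genAt_two EC TC hgen)

/-- **`IsCube` over the non-rigid level `2M`**, for the generators of inertia chosen over `4M`. -/
theorem isCube_two (EC : MCtx p T θ rbar0) (TC : MTW p T θ (M * 2 * 2) t n qv)
    (hA : ∀ i, (A i).LiesOverPrime ((qv i : Nat.Primes) : ℕ))
    (hτ : ∀ i, τ i ∈ (A i).inertiaSubgroupIn ℚ) (hgen : GenAt p T θ (M * 2 * 2) qv A τ) :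
    IsCube p (↑(cutS T qv) : Set ℕ) θ (M * 2) qv τ :=
  isCube_of_tau0 EC (TC.toMTW0.of_dvd (Dvd.intro _ rfl)) (ctrlCube_two EC TC) A τ hA hτ
    (genAt_two EC TC hgen)

/-- **`IsCube` over the non-rigid level `M`**, for the generators of inertia chosen over `4M`, from (CTRL) over `M`
(`ctrlCube_one_of_ne_three`, `ctrlCube_one_of_inv4`). -/
theorem isCube_one (EC : MCtx p T θ rbar0) (TC : MTW p T θ (M * 2 * 2) t n qv) (hM : ¬ 2 ∣ M)
    (hc : CtrlCube p T θ M qv)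
    (hA : ∀ i, (A i).LiesOverPrime ((qv i : Nat.Primes) : ℕ))
    (hτ : ∀ i, τ i ∈ (A i).inertiaSubgroupIn ℚ) (hgen : GenAt p T θ (M * 2 * 2) qv A τ) :
    IsCube p (↑(cutS T qv) : Set ℕ) θ M qv τ :=
  isCube_of_tau0 EC (TC.toMTW0.of_dvd ⟨2 * 2, by ring⟩) hc A τ hA hτ (genAt_one EC TC hM hgen)

/-- **the `2`-new parts of the levels `lev (2M) qv Q` form a cube.** -/
theorem cubeK_two (EC : MCtx p T θ rbar0) (TC : MTW p T θ (M * 2 * 2) t n qv) (hM : ¬ 2 ∣ M)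
    (hc : CtrlCube p T θ M qv)
    (hA : ∀ i, (A i).LiesOverPrime ((qv i : Nat.Primes) : ℕ))
    (hτ : ∀ i, τ i ∈ (A i).inertiaSubgroupIn ℚ) (hgen : GenAt p T θ (M * 2 * 2) qv A τ) :
    Cube p (Finset.univ : Finset (Fin t)) (fun i => ((qv i : Nat.Primes) : ℕ)) (nuP p qv)
      (fun Q => JZero (lev (M * 2) qv Q))
      (fun Q => kerSub (thetaPart (lev (M * 2) qv Q) p (↑(cutS T qv) : Set ℕ) θ)
        (dnQ qv (rfl : M * 2 = M * 2) Q))
      (TQ (M * 2) qv) (ioQ (M * 2) qv) (PiQ (M * 2) qv) (tauQ (M * 2) qv τ) := by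
  have TC2 : MTW0 p T θ (M * 2) t n qv := TC.toMTW0.of_dvd (Dvd.intro _ rfl)
  exact cubeK_of_isCube Fact.out Nat.prime_two rfl (not_dvd_lev_of TC2 Nat.prime_two hM)
    (ne_qv_of_mtw0 TC2 Nat.prime_two) (EC.nonEis (cutS T qv))
    (Finset.mem_coe.2 (subset_cutS T qv (TC2.lev 2 Nat.prime_two
      ((Dvd.intro_left M rfl).mul_right p))))
    (hS_lev_of_mtw0 TC2) (fun _ _ hl => TC2.not_dvd_lev_mul hl)
    (isCube_two EC TC hA hτ hgen) (isCube_one EC TC hM hc hA hτ hgen)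

/-- ONE choice of generators of inertia for the three cubes over `4M`, `2M`, `M`. -/
theorem exists_isCube_four_two_one (EC : MCtx p T θ rbar0) (TC : MTW p T θ (M * 2 * 2) t n qv)
    (hM : ¬ 2 ∣ M) (hc : CtrlCube p T θ M qv) :
    ∃ (A : Fin t → ValuationSubring Qbar) (τ : Fin t → GQ),
      (∀ i, (A i).LiesOverPrime ((qv i : Nat.Primes) : ℕ)) ∧
      (∀ i, τ i ∈ (A i).inertiaSubgroupIn ℚ) ∧
      GenAt p T θ (M * 2 * 2) qv A τ ∧ GenAt p T θ (M * 2) qv A τ ∧ GenAt p T θ M qv A τ ∧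
      IsCube p (↑(cutS T qv) : Set ℕ) θ (M * 2 * 2) qv τ ∧
      IsCube p (↑(cutS T qv) : Set ℕ) θ (M * 2) qv τ ∧
      IsCube p (↑(cutS T qv) : Set ℕ) θ M qv τ := by
  obtain ⟨A, τ, hA, hτ, hgen, hC⟩ := exists_isCube EC TC
  exact ⟨A, τ, hA, hτ, hgen, genAt_two EC TC hgen, genAt_one EC TC hM hgen, hC,
    isCube_two EC TC hA hτ hgen, isCube_one EC TC hM hc hA hτ hgen⟩

end Final

end Fermat.Agent.ML.At2
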