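import Fermat.Agent.ML.At2.Ctrl.Cube
import Fermat.Agent.ML.At2.Car.Inv4
import Fermat.Agent.ML.At2.R8

/-!
# ML / AT-2 / Ctrl / CubeInv : the cubes over the non-rigid levels `2M`, `M` WITHOUT hypothesis

`inv4` (`ML/At2/Car/Inv4.lean`) at the vertices `lev M qv Q` + the prime `r` of `ML/At2/R8.lean` remove the hypotheses
`Hinv` / `hc` of `ML/At2/Ctrl/Cube.lean`:

* `inv4_lev`      : `Inv4 (lev M qv Q) 3 ↑(cutS T qv) θ`;
* `ctrlCube_one`  : `CtrlCube p T θ M qv` (`M` odd; `p = 3` by [INV4], `p ≠ 3` by the trace trick);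
* `isCube_one'`, `cubeK_two'`, `exists_isCube_421` : the statements of `Cube.lean` without `hc`.
-/

set_option autoImplicit false
set_option linter.unusedSectionVars false

noncomputable section

open AlgebraicCurve ModularCurve

namespace Fermat.Agent.ML.At2

open Fermat.Agent.RIB Fermat.Agent.GAL Fermat.Agent.GAL.PC Fermat.Agent.ML.TWFree

local notation "Qbar" => AlgebraicClosure ℚ
local notation "GQ" => (AlgebraicClosure ℚ ≃ₐ[ℚ] AlgebraicClosure ℚ)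
local notation "M₂" => Matrix (Fin 2) (Fin 2)

variable {p : ℕ} [Fact p.Prime] {T : Finset ℕ} {θ : ℕ → ℤ} {rbar0 : GQ →* M₂ (ZMod p)}
  {M t n : ℕ} [NeZero M] {qv : Fin t → Nat.Primes}
  {A : Fin t → ValuationSubring Qbar} {τ : Fin t → GQ}

/-- **[INV4] at the vertices of the cube over `M`.** -/
theorem inv4_lev (EC : MCtx p T θ rbar0) (hp3 : p = 3) (TC : MTW0 p T θ (M * 2 * 2) t n qv)
    (hM : ¬ 2 ∣ M) (Q : Finset (Fin t)) : Inv4 (lev M qv Q) p (↑(cutS T qv) : Set ℕ) θ := by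
  subst hp3
  have TC2 : MTW0 3 T θ (M * 2) t n qv := TC.of_dvd (Dvd.intro _ rfl)
  refine inv4 Fact.out EC.hp2 (not_dvd_lev_of TC2 Nat.prime_two hM Q) (EC.nonEis (cutS T qv))
    (Finset.mem_coe.2 (subset_cutS T qv (TC.lev 2 Nat.prime_two
      ((Dvd.intro_left (M * 2) rfl).mul_right 3)))) ?_ ?_
  · intro r hr hrS hd
    refine hS_lev_of_mtw0 TC Q r hr hrS ?_
    rw [lev_mul2 qv rfl Q]
    exact hd
  · obtain ⟨r, h1, h2, h3⟩ := EC.exists_prime_r8 (cutS T qv)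
    exact ⟨r, fun h => h1 (Finset.mem_coe.1 h), h2, h3⟩

/-- **(CTRL) on the cube over the odd level `M`**, every odd `p`. -/
theorem ctrlCube_one (EC : MCtx p T θ rbar0) (TC : MTW p T θ (M * 2 * 2) t n qv) (hM : ¬ 2 ∣ M) :
    CtrlCube p T θ M qv := by
  by_cases hp3 : p = 3
  · exact ctrlCube_one_of_inv4 EC TC hM fun Q => inv4_lev EC hp3 TC.toMTW0 hM Q
  · exact ctrlCube_one_of_ne_three EC TC hM hp3

/-- **`IsCube` over the odd level `M`.** -/
theorem isCube_one' (EC : MCtx p T θ rbar0) (TC : MTW p T θ (M * 2 * 2) t n qv) (hM : ¬ 2 ∣ M)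
    (hA : ∀ i, (A i).LiesOverPrime ((qv i : Nat.Primes) : ℕ))
    (hτ : ∀ i, τ i ∈ (A i).inertiaSubgroupIn ℚ) (hgen : GenAt p T θ (M * 2 * 2) qv A τ) :
    IsCube p (↑(cutS T qv) : Set ℕ) θ M qv τ :=
  isCube_one EC TC hM (ctrlCube_one EC TC hM) hA hτ hgen

/-- **the `2`-new parts of the levels `lev (2M) qv Q` form a cube.** -/
theorem cubeK_two' (EC : MCtx p T θ rbar0) (TC : MTW p T θ (M * 2 * 2) t n qv) (hM : ¬ 2 ∣ M)
    (hA : ∀ i, (A i).LiesOverPrime ((qv i : Nat.Primes) : ℕ))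
    (hτ : ∀ i, τ i ∈ (A i).inertiaSubgroupIn ℚ) (hgen : GenAt p T θ (M * 2 * 2) qv A τ) :
    Cube p (Finset.univ : Finset (Fin t)) (fun i => ((qv i : Nat.Primes) : ℕ)) (nuP p qv)
      (fun Q => JZero (lev (M * 2) qv Q))
      (fun Q => kerSub (thetaPart (lev (M * 2) qv Q) p (↑(cutS T qv) : Set ℕ) θ)
        (dnQ qv (rfl : M * 2 = M * 2) Q))
      (TQ (M * 2) qv) (ioQ (M * 2) qv) (PiQ (M * 2) qv) (tauQ (M * 2) qv τ) :=
  cubeK_two EC TC hM (ctrlCube_one EC TC hM) hA hτ hgen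

/-- ONE choice of generators of inertia for the three cubes over `4M`, `2M`, `M`. -/
theorem exists_isCube_421 (EC : MCtx p T θ rbar0) (TC : MTW p T θ (M * 2 * 2) t n qv)
    (hM : ¬ 2 ∣ M) :
    ∃ (A : Fin t → ValuationSubring Qbar) (τ : Fin t → GQ),
      (∀ i, (A i).LiesOverPrime ((qv i : Nat.Primes) : ℕ)) ∧
      (∀ i, τ i ∈ (A i).inertiaSubgroupIn ℚ) ∧
      GenAt p T θ (M * 2 * 2) qv A τ ∧ GenAt p T θ (M * 2) qv A τ ∧ GenAt p T θ M qv A τ ∧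
      IsCube p (↑(cutS T qv) : Set ℕ) θ (M * 2 * 2) qv τ ∧
      IsCube p (↑(cutS T qv) : Set ℕ) θ (M * 2) qv τ ∧
      IsCube p (↑(cutS T qv) : Set ℕ) θ M qv τ :=
  exists_isCube_four_two_one EC TC hM (ctrlCube_one EC TC hM)

end Fermat.Agent.ML.At2
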