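import Fermat.Agent.ML.Deg.CommTower
import Fermat.Agent.ML.Ihara.Theta
import Fermat.Agent.ML.Ihara.A2

/-!
# ML / AT-2 / Ctrl / Desc : (CTRL) descends along a degeneracy map of degree prime to `p`

`Ctrl L l p S θ A` : the two conclusions of `Low.ctrl_step` at the level `L` and the Taylor–Wiles prime `l` (`A ∣ l`):
the inertia-fixed classes of the `θ`-part of level `L l²` are old, and `ι_l` is injective on the `θ`-part of level `L`.

* `ctrl_desc` : `Ctrl (N q) l ⟹ Ctrl N l` if `α_{q *} α_q^* = d` at the levels `N`, `N l²` with `d` prime to `p` (trace trick).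
* `ctrl_desc_dvd` (`q ∣ N`, `d = q`), `ctrl_desc_not_dvd` (`q ∤ N`, `d = q + 1`).
-/

set_option autoImplicit false
set_option linter.unusedSectionVars false
set_option linter.style.haveILetI false

noncomputable section

open AlgebraicCurve ModularCurve

namespace Fermat.Agent.ML.At2

open Fermat.Agent.RIB Fermat.Agent.GAL Fermat.Agent.GAL.PC Fermat.Agent.GAL.HeckeComm

local notation "Qbar" => AlgebraicClosure ℚ
local notation "GQ" => (AlgebraicClosure ℚ ≃ₐ[ℚ] AlgebraicClosure ℚ)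

/-- (CTRL) at the level `L` and the prime `l`. -/
def Ctrl (L l p : ℕ) [NeZero L] [NeZero l] (S : Set ℕ) (θ : ℕ → ℤ)
    (A : ValuationSubring Qbar) : Prop :=
  (∀ x ∈ thetaPart (L * l * l) p S θ, (∀ τ ∈ A.inertiaSubgroupIn ℚ, τ • x = x) →
    ∃ v : Fin 3 → JZero L, (∀ i, v i ∈ thetaPart L p S θ) ∧ iota L l v = x) ∧
  (∀ v : Fin 3 → JZero L, (∀ i, v i ∈ thetaPart L p S θ) → iota L l v = 0 → v = 0)

/-- a `p`-power torsion class is a multiple of `d x` if `d` is prime to `p`. -/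
theorem exists_zsmul_eq {X : Type*} [AddCommGroup X] {p d : ℕ} (hc : Nat.Coprime d p) {x : X}
    (hx : ∃ k, p ^ k • x = 0) : ∃ a : ℤ, a • (d • x) = x := by
  obtain ⟨k, hk⟩ := hx
  have h1 : Nat.Coprime d (p ^ k) := Nat.Coprime.pow_right k hc
  refine ⟨Nat.gcdA d (p ^ k), ?_⟩
  have h2 : ((Nat.gcd d (p ^ k) : ℕ) : ℤ) • x = Nat.gcdA d (p ^ k) • (d • x) := by
    have e2 : ((p ^ k : ℕ) : ℤ) • x = 0 := by rw [natCast_zsmul, hk]
    have e3 : (Nat.gcdB d (p ^ k) * ((p ^ k : ℕ) : ℤ)) • x = 0 := by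
      rw [mul_zsmul, e2, zsmul_zero]
    rw [Nat.gcd_eq_gcd_ab, add_zsmul, mul_comm ((p ^ k : ℕ) : ℤ), e3, add_zero, mul_comm,
      mul_zsmul, natCast_zsmul]
  rw [← h2, h1]
  simp

theorem eq_zero_of_nsmul_eq_zero {X : Type*} [AddCommGroup X] {p d : ℕ} (hc : Nat.Coprime d p)
    {x : X} (hx : ∃ k, p ^ k • x = 0) (h : d • x = 0) : x = 0 := by
  obtain ⟨a, ha⟩ := exists_zsmul_eq hc hx
  rw [← ha, h, zsmul_zero]

section Desc

variable {N q l p : ℕ} [NeZero N] [NeZero q] [NeZero l] {S : Set ℕ} {θ : ℕ → ℤ}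
  {A : ValuationSubring Qbar}

theorem lev_comm (N q l : ℕ) : N * l * l * q = N * q * l * l := by ring

/-- `α_q^*` of an old class. -/
theorem castJ_pullA_iota (v : Fin 3 → JZero N) :
    castJ (lev_comm N q l) (pullA (N * l * l) q (iota N l v)) =
      iota (N * q) l (fun i => pullA N q (v i)) := by
  rw [iota_apply, iota_apply, map_sum, map_sum]
  refine Finset.sum_congr rfl fun j _ => ?_
  rw [castJ_pullA_iot N q l rfl (lev_comm N q l) j (v j), castJ_rfl]

/-- `α_{q *}` of an old class. -/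
theorem pushA_castJ_iota (hq : q.Prime) (hl : l.Prime) (hne : q ≠ l) (w : Fin 3 → JZero (N * q)) :
    SS.pushA (N * l * l) q ((castJ (lev_comm N q l)).symm (iota (N * q) l w)) =
      iota N l (fun i => SS.pushA N q (w i)) := by
  rw [iota_apply, iota_apply, map_sum, map_sum]
  refine Finset.sum_congr rfl fun j _ => ?_
  rw [pushA_castJ_iot N hq hl hne rfl (lev_comm N q l) j (w j), castJ_symm_apply, castJ_rfl]

/-- **(CTRL) descends** along `α_q` if its degree is prime to `p`. -/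
theorem ctrl_desc (hq : q.Prime) (hl : l.Prime) (hne : q ≠ l) {d : ℕ} (hd : Nat.Coprime d p)
    (hd0 : ∀ x : JZero N, SS.pushA N q (pullA N q x) = d • x)
    (hd1 : ∀ x : JZero (N * l * l), SS.pushA (N * l * l) q (pullA (N * l * l) q x) = d • x)
    (hS : ∀ r : ℕ, r.Prime → r ∉ S → ¬ r ∣ N * l * l * q * p)
    (H : Ctrl (N * q) l p S θ A) : Ctrl N l p S θ A := by
  have hS0 : ∀ r : ℕ, r.Prime → r ∉ S → ¬ r ∣ N * q * p := fun r hr hrS hd' =>
    hS r hr hrS (hd'.trans ⟨l * l, by ring⟩)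
  refine ⟨fun x hx hfix => ?_, fun v hv h0 => ?_⟩
  · set y := castJ (lev_comm N q l) (pullA (N * l * l) q x) with hy
    have hyθ : y ∈ thetaPart (N * q * l * l) p S θ :=
      (castJ_mem_thetaPart _).2 (pullA_mem_thetaPart hS hx)
    have hyfix : ∀ τ ∈ A.inertiaSubgroupIn ℚ, τ • y = y := fun τ hτ => by
      rw [hy, ← castJ_smul, ← pullA_smul, hfix τ hτ]
    obtain ⟨w, hw, hwy⟩ := H.1 y hyθ hyfix
    have h1 : d • x = iota N l (fun i => SS.pushA N q (w i)) := by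
      rw [← pushA_castJ_iota hq hl hne w, hwy, hy, AddEquiv.symm_apply_apply, hd1]
    obtain ⟨a, ha⟩ := exists_zsmul_eq hd hx.1
    refine ⟨fun i => a • SS.pushA N q (w i), fun i =>
      (thetaPart N p S θ).zsmul_mem (pushA_mem_thetaPart hS0 (hw i)) a, ?_⟩
    have h2 : (fun i => a • SS.pushA N q (w i)) = a • (fun i => SS.pushA N q (w i)) := rfl
    rw [h2, map_zsmul, ← h1, ha]
  · have h1 : iota (N * q) l (fun i => pullA N q (v i)) = 0 := by
      rw [← castJ_pullA_iota, h0, map_zero, map_zero]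
    have h2 := H.2 _ (fun i => pullA_mem_thetaPart hS0 (hv i)) h1
    funext i
    refine eq_zero_of_nsmul_eq_zero hd (hv i).1 ?_
    rw [← hd0, congrFun h2 i]
    simp

/-- `α_{q *} α_q^* = q` if `q ∣ N`. -/
theorem pushA_pullA_of_dvd (N q : ℕ) [NeZero N] [NeZero q] (hq : q.Prime) (hqN : q ∣ N)
    (x : JZero N) : SS.pushA N q (pullA N q x) = q • x := by
  rw [pushA_eq_jPush, pullA_eq_jPull, jPush_jPull, finrankAlong_alpha_of_dvd N q hq hqN]

/-- `β_{q *} β_q^* = q` if `q ∣ N`. -/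
theorem pushB_pullB_of_dvd (N q : ℕ) [NeZero N] [NeZero q] (hq : q.Prime) (hqN : q ∣ N)
    (x : JZero N) : SS.pushB N q (pullB N q x) = q • x := by
  rw [pushB_eq_jPush, pullB_eq_jPull, jPush_jPull, S36.Kum.finrankAlong_beta_eq_alpha' N q hq,
    finrankAlong_alpha_of_dvd N q hq hqN]

/-- (CTRL) descends from `N q` to `N` when `q ∣ N`, `q ≠ p`. -/
theorem ctrl_desc_dvd (hp : p.Prime) (hq : q.Prime) (hl : l.Prime) (hne : q ≠ l) (hqp : q ≠ p)
    (hqN : q ∣ N) (hS : ∀ r : ℕ, r.Prime → r ∉ S → ¬ r ∣ N * l * l * q * p)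
    (H : Ctrl (N * q) l p S θ A) : Ctrl N l p S θ A :=
  ctrl_desc hq hl hne ((Nat.coprime_primes hq hp).2 hqp) (pushA_pullA_of_dvd N q hq hqN)
    (pushA_pullA_of_dvd (N * l * l) q hq (hqN.trans ⟨l * l, by ring⟩)) hS H

/-- (CTRL) descends from `N q` to `N` when `q ∤ N`, `p ∤ q + 1`. -/
theorem ctrl_desc_not_dvd (hp : p.Prime) (hq : q.Prime) (hl : l.Prime) (hne : q ≠ l)
    (hqp : ¬ p ∣ q + 1) (hqN : ¬ q ∣ N)
    (hS : ∀ r : ℕ, r.Prime → r ∉ S → ¬ r ∣ N * l * l * q * p)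
    (H : Ctrl (N * q) l p S θ A) : Ctrl N l p S θ A := by
  refine ctrl_desc hq hl hne (Nat.Coprime.symm ((Nat.Prime.coprime_iff_not_dvd hp).2 hqp))
    (pushA_pullA N q hq hqN) (pushA_pullA (N * l * l) q hq ?_) hS H
  intro h
  rcases (Nat.Prime.dvd_mul hq).1 h with h | h
  · rcases (Nat.Prime.dvd_mul hq).1 h with h | h
    · exact hqN h
    · exact hne ((Nat.prime_dvd_prime_iff_eq hq hl).1 h)
  · exact hne ((Nat.prime_dvd_prime_iff_eq hq hl).1 h)

end Desc

end Fermat.Agent.ML.At2
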